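import Fermat.Agent.S55.E1.SpecAlg2
import Fermat.Agent.S55.T.All

/-!
# S55 engine E1, leaf ALG7a (helper660): `p`-torsion of `H²` of a class module at `p`

`alg7a : Fermat.Agent.S55.E1.ALG7aSpec`.

`P` a Sylow `p`-subgroup of `G`.  `res : H²(G, C) → H²(P, C)` is injective on `p`-torsion
(`T.All.resIndex`), and `H²(P, C)` is cyclic of order `|P|` generated by `res γ`.
* Part 1: the `p`-torsion of a cyclic group is cyclic, killed by `p`: a nonzero element generates.
* Part 2: `p ∣ |P| = addOrderOf (res γ) ∣ d := addOrderOf γ`, `w := (d / p) • γ`.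
-/

set_option autoImplicit false
set_option linter.style.haveILetI false

namespace Fermat.Agent.S55.E1.H660

open Fermat.Agent.S55 Fermat.Agent.S55.E1

section Abstract

variable {B : Type} [AddCommGroup B]

/-- An element killed by two coprime integers is zero. -/
lemma eq_zero_of_coprime_nsmul {A : Type} [AddCommGroup A] {m p : ℕ} (h : Nat.Coprime m p)
    {x : A} (hm : m • x = 0) (hp : p • x = 0) : x = 0 := by
  have h1 : ((m : ℤ).gcd (p : ℤ)) = 1 := by
    simpa [Int.gcd_natCast_natCast] using h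
  have h2 := Int.gcd_eq_gcd_ab (m : ℤ) (p : ℤ)
  rw [h1] at h2
  have hm' : (m : ℤ) • x = 0 := by rw [natCast_zsmul]; exact hm
  have hp' : (p : ℤ) • x = 0 := by rw [natCast_zsmul]; exact hp
  have : (1 : ℤ) • x = 0 := by
    have e : (1 : ℤ) = (m : ℤ) * Int.gcdA m p + (p : ℤ) * Int.gcdB m p := by
      exact_mod_cast h2
    rw [e, add_smul, mul_comm (m : ℤ), mul_comm (p : ℤ), mul_smul, mul_smul, hm', hp',
      smul_zero, smul_zero, add_zero]
  simpa using this

/-- An integer multiple of an element killed by `p > 0` is a natural multiple. -/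
lemma exists_nsmul_of_zsmul {p : ℕ} (hp0 : 0 < p) {x : B} (hx : p • x = 0) (k : ℤ) :
    ∃ n : ℕ, k • x = n • x := by
  refine ⟨(k % (p : ℤ)).toNat, ?_⟩
  have hp' : (p : ℤ) • x = 0 := by rw [natCast_zsmul]; exact hx
  have h1 : 0 ≤ k % (p : ℤ) := Int.emod_nonneg _ (by exact_mod_cast hp0.ne')
  have h2 : ((k % (p : ℤ)).toNat : ℤ) = k % (p : ℤ) := Int.toNat_of_nonneg h1
  rw [← natCast_zsmul, h2]
  conv_lhs => rw [← Int.emod_add_mul_ediv k (p : ℤ)]
  rw [add_smul, mul_smul, smul_comm, hp', smul_zero, add_zero]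

/-- In a cyclic group, the elements killed by a prime `p` are multiples of any nonzero one. -/
lemma exists_nsmul_eq_of_cyclic {p : ℕ} (hp : p.Prime) (g : B) (hg : ∀ y : B, ∃ n : ℕ, y = n • g)
    {x y : B} (hx : p • x = 0) (hy : p • y = 0) (hx0 : x ≠ 0) : ∃ n : ℕ, y = n • x := by
  haveI : IsAddCyclic B := ⟨g, fun y => by
    obtain ⟨n, hn⟩ := hg y
    exact ⟨(n : ℤ), by simp [hn]⟩⟩
  -- the subgroup of elements killed by `p`
  let T : AddSubgroup B := (nsmulAddMonoidHom (α := B) p).ker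
  have hT : ∀ z : B, z ∈ T ↔ p • z = 0 := fun z => by
    simp [T, AddMonoidHom.mem_ker]
  obtain ⟨t, ht⟩ := IsAddCyclic.exists_generator (α := T)
  have hpt : p • (t : B) = 0 := (hT _).1 t.2
  obtain ⟨c, hc⟩ := AddSubgroup.mem_zmultiples_iff.1 (ht ⟨x, (hT x).2 hx⟩)
  obtain ⟨d, hd⟩ := AddSubgroup.mem_zmultiples_iff.1 (ht ⟨y, (hT y).2 hy⟩)
  have hc' : c • (t : B) = x := by
    have := congrArg (fun z : T => (z : B)) hc
    simpa using this
  have hd' : d • (t : B) = y := by
    have := congrArg (fun z : T => (z : B)) hd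
    simpa using this
  have hpt' : (p : ℤ) • (t : B) = 0 := by rw [natCast_zsmul]; exact hpt
  -- `p ∤ c`
  have hpc : ¬ (p : ℤ) ∣ c := by
    rintro ⟨e, rfl⟩
    apply hx0
    rw [← hc', mul_comm, mul_smul, hpt', smul_zero]
  have hcop : IsCoprime c (p : ℤ) := by
    rw [isCoprime_comm]
    exact (Nat.prime_iff_prime_int.1 hp).coprime_iff_not_dvd.2 hpc
  obtain ⟨u, v, huv⟩ := hcop
  -- `t = u • x`
  have htx : (t : B) = u • x := by
    have : (1 : ℤ) • (t : B) = u • x := by
      rw [← huv, add_smul, mul_smul, mul_smul, hc', hpt', smul_zero, add_zero]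
    simpa using this
  obtain ⟨n, hn⟩ := exists_nsmul_of_zsmul hp.pos hx (d * u)
  exact ⟨n, by rw [← hn, mul_smul, ← htx, hd']⟩

/-- A torsion element whose image has order divisible by `p` has a nonzero multiple killed
by `p`. -/
lemma exists_ne_zero_nsmul_eq_zero {A : Type} [AddCommGroup A] {p : ℕ} (hp : p.Prime)
    (r : A →+ B) (γ : A) {N : ℕ} (hN : 0 < N) (hNγ : N • γ = 0)
    (hdvd : p ∣ addOrderOf (r γ)) : ∃ w : A, w ≠ 0 ∧ p • w = 0 := by
  have hfin : IsOfFinAddOrder γ := isOfFinAddOrder_iff_nsmul_eq_zero.2 ⟨N, hN, hNγ⟩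
  have hd0 : 0 < addOrderOf γ := hfin.addOrderOf_pos
  have hpd : p ∣ addOrderOf γ := hdvd.trans (addOrderOf_map_dvd r γ)
  obtain ⟨e, he⟩ := hpd
  have he0 : 0 < e := by
    rcases Nat.eq_zero_or_pos e with h | h
    · rw [h, mul_zero] at he; omega
    · exact h
  refine ⟨e • γ, ?_, ?_⟩
  · intro h0
    have h1 := addOrderOf_dvd_of_nsmul_eq_zero h0
    have h2 := Nat.le_of_dvd he0 h1
    have h3 : 2 ≤ p := hp.two_le
    rw [he] at h2
    nlinarith
  · rw [← mul_smul, ← he]
    exact addOrderOf_nsmul_eq_zero γ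

end Abstract

/-- **ALG7a**: the `p`-torsion of `H²(G, C)` for a class module at `p`. -/
theorem alg7a : ALG7aSpec := by
  intro p hp G _ _ C γ hC
  haveI : Fact p.Prime := ⟨hp⟩
  obtain ⟨P⟩ := (inferInstance : Nonempty (Sylow p G))
  obtain ⟨-, hcard, hgen⟩ := hC (P : Subgroup G) P.isPGroup'
  have hidx : Nat.Coprime (P : Subgroup G).index p := by
    rw [Nat.coprime_comm]
    exact (Nat.Prime.coprime_iff_not_dvd hp).2 P.not_dvd_index
  have hinj : ∀ x : groupCohomology C 2, p • x = 0 → (T.resMap C (P : Subgroup G) 2).hom x = 0 →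
      x = 0 := by
    intro x hpx hx
    exact eq_zero_of_coprime_nsmul hidx
      (T.All.resIndex ℤ G C (P : Subgroup G) 2 (by norm_num) x hx) hpx
  refine ⟨?_, ?_⟩
  · intro w w' hw hw' hw0
    have h1 : (T.resMap C (P : Subgroup G) 2).hom w ≠ 0 := fun h => hw0 (hinj w hw h)
    have h2 : p • (T.resMap C (P : Subgroup G) 2).hom w = 0 := by
      rw [← map_nsmul, hw, map_zero]
    have h3 : p • (T.resMap C (P : Subgroup G) 2).hom w' = 0 := by
      rw [← map_nsmul, hw', map_zero]
    obtain ⟨n, hn⟩ := exists_nsmul_eq_of_cyclic hp _ hgen h2 h3 h1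
    refine ⟨n, ?_⟩
    have h4 : w' - n • w = 0 := by
      apply hinj
      · rw [smul_sub, hw', smul_comm, hw, smul_zero, sub_zero]
      · rw [map_sub, map_nsmul, hn, sub_self]
    exact sub_eq_zero.1 h4
  · intro hpG
    have hNγ : Nat.card G • γ = 0 := T.All.cardTorsion ℤ G C 2 (by norm_num) γ
    -- `addOrderOf (res γ) = |P|`
    have htop : AddSubgroup.zmultiples ((T.resMap C (P : Subgroup G) 2).hom γ) = ⊤ := by
      rw [eq_top_iff]
      intro y _
      obtain ⟨n, hn⟩ := hgen y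
      exact AddSubgroup.mem_zmultiples_iff.2 ⟨(n : ℤ), by simp [hn]⟩
    have hord : addOrderOf ((T.resMap C (P : Subgroup G) 2).hom γ) = Nat.card (P : Subgroup G) := by
      rw [← hcard, ← Nat.card_zmultiples, htop]
      exact Nat.card_congr (AddSubgroup.topEquiv).toEquiv
    have hpP : p ∣ Nat.card (P : Subgroup G) := P.dvd_card_of_dvd_card hpG
    exact exists_ne_zero_nsmul_eq_zero hp
      ((T.resMap C (P : Subgroup G) 2).hom : groupCohomology C 2 →ₗ[ℤ] _).toAddMonoidHom γ
      Nat.card_pos hNγ (by rw [LinearMap.toAddMonoidHom_coe, hord]; exact hpP)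

end Fermat.Agent.S55.E1.H660
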